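/-
Program R (dimension formula for S_2(Γ0(N)) via the function field of X0(N)).
Shared definitions.  Owner: helper3.  No sorries.

* (Klein's `j` is `Fermat.Agent.ProgramR.LevelOne.jInv`, file `LevelOne/JInv.lean`, helper9)
* `IsWH0 Γ h`       : `h : ℍ → ℂ` is a weight-0 weakly holomorphic modular form for `Γ ≤ SL(2,ℤ)`
                      (holomorphic on `ℍ`, `Γ`-invariant, meromorphic at all cusps)
* `WH0 Γ`           : the `ℂ`-algebra of such functions (a subalgebra of `ℍ → ℂ`)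
-/
import Mathlib

set_option autoImplicit false

namespace Fermat.Agent.ProgramR

open UpperHalfPlane ModularForm EisensteinSeries MatrixGroups CongruenceSubgroup Filter
open scoped Manifold

local notation "Δ" => ModularForm.discriminant

/-- `h` is a weight-0 weakly holomorphic modular form for `Γ`:
holomorphic on `ℍ`, `Γ`-invariant, and `(h ∘ g) · Δ^m` is bounded at `i∞` for one `m`
and every `g ∈ SL(2,ℤ)` (i.e. `h` is meromorphic at all cusps). -/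
structure IsWH0 (Γ : Subgroup SL(2, ℤ)) (h : ℍ → ℂ) : Prop where
  mdiff : MDiff h
  smul_eq : ∀ γ ∈ Γ, ∀ z : ℍ, h (γ • z) = h z
  exists_bdd : ∃ m : ℕ, ∀ g : SL(2, ℤ), IsBoundedAtImInfty (fun z : ℍ => h (g • z) * Δ z ^ m)

lemma isBoundedAtImInfty_discriminant : IsBoundedAtImInfty (fun z : ℍ => Δ z) :=
  (ModularForm.discriminant_isZeroAtImInfty).isBoundedAtImInfty

lemma isBoundedAtImInfty_const (c : ℂ) : IsBoundedAtImInfty (fun _ : ℍ => c) :=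
  Filter.const_boundedAtFilter atImInfty c

lemma isBoundedAtImInfty_discriminant_pow (m : ℕ) :
    IsBoundedAtImInfty (fun z : ℍ => Δ z ^ m) := by
  induction m with
  | zero => simpa using isBoundedAtImInfty_const 1
  | succ m ih =>
    have h : IsBoundedAtImInfty ((fun z : ℍ => Δ z ^ m) * (fun z : ℍ => Δ z)) :=
      ih.mul isBoundedAtImInfty_discriminant
    have e : ((fun z : ℍ => Δ z ^ m) * (fun z : ℍ => Δ z)) = fun z : ℍ => Δ z ^ (m + 1) := by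
      funext z; simp [pow_succ]
    rwa [e] at h

lemma IsWH0.bdd_of_le {h : ℍ → ℂ} {m m' : ℕ} (hmm : m ≤ m')
    (hb : ∀ g : SL(2, ℤ), IsBoundedAtImInfty (fun z : ℍ => h (g • z) * Δ z ^ m)) :
    ∀ g : SL(2, ℤ), IsBoundedAtImInfty (fun z : ℍ => h (g • z) * Δ z ^ m') := by
  intro g
  obtain ⟨d, rfl⟩ := Nat.exists_eq_add_of_le hmm
  have h1 : IsBoundedAtImInfty
      ((fun z : ℍ => h (g • z) * Δ z ^ m) * (fun z : ℍ => Δ z ^ d)) :=
    (hb g).mul (isBoundedAtImInfty_discriminant_pow d)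
  have e : ((fun z : ℍ => h (g • z) * Δ z ^ m) * (fun z : ℍ => Δ z ^ d))
      = fun z : ℍ => h (g • z) * Δ z ^ (m + d) := by
    funext z; simp [pow_add, mul_assoc]
  rwa [e] at h1

lemma isWH0_const (Γ : Subgroup SL(2, ℤ)) (c : ℂ) : IsWH0 Γ (fun _ => c) where
  mdiff := mdifferentiable_const
  smul_eq := fun _ _ _ => rfl
  exists_bdd := ⟨0, fun _ => by simpa using isBoundedAtImInfty_const c⟩

lemma IsWH0.add {Γ : Subgroup SL(2, ℤ)} {h₁ h₂ : ℍ → ℂ} (H₁ : IsWH0 Γ h₁) (H₂ : IsWH0 Γ h₂) :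
    IsWH0 Γ (h₁ + h₂) where
  mdiff := H₁.mdiff.add H₂.mdiff
  smul_eq := fun γ hγ z => by
    show h₁ (γ • z) + h₂ (γ • z) = h₁ z + h₂ z
    rw [H₁.smul_eq γ hγ z, H₂.smul_eq γ hγ z]
  exists_bdd := by
    obtain ⟨m₁, hm₁⟩ := H₁.exists_bdd
    obtain ⟨m₂, hm₂⟩ := H₂.exists_bdd
    refine ⟨max m₁ m₂, fun g => ?_⟩
    have h1 := IsWH0.bdd_of_le (le_max_left m₁ m₂) hm₁ g
    have h2 := IsWH0.bdd_of_le (le_max_right m₁ m₂) hm₂ g
    have h3 : IsBoundedAtImInfty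
        ((fun z : ℍ => h₁ (g • z) * Δ z ^ max m₁ m₂) + fun z : ℍ => h₂ (g • z) * Δ z ^ max m₁ m₂) :=
      h1.add h2
    have e : ((fun z : ℍ => h₁ (g • z) * Δ z ^ max m₁ m₂) +
        fun z : ℍ => h₂ (g • z) * Δ z ^ max m₁ m₂)
        = fun z : ℍ => (h₁ + h₂) (g • z) * Δ z ^ max m₁ m₂ := by
      funext z; simp [add_mul]
    rwa [e] at h3

lemma IsWH0.mul {Γ : Subgroup SL(2, ℤ)} {h₁ h₂ : ℍ → ℂ} (H₁ : IsWH0 Γ h₁) (H₂ : IsWH0 Γ h₂) :
    IsWH0 Γ (h₁ * h₂) where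
  mdiff := H₁.mdiff.mul H₂.mdiff
  smul_eq := fun γ hγ z => by
    show h₁ (γ • z) * h₂ (γ • z) = h₁ z * h₂ z
    rw [H₁.smul_eq γ hγ z, H₂.smul_eq γ hγ z]
  exists_bdd := by
    obtain ⟨m₁, hm₁⟩ := H₁.exists_bdd
    obtain ⟨m₂, hm₂⟩ := H₂.exists_bdd
    refine ⟨m₁ + m₂, fun g => ?_⟩
    have h3 : IsBoundedAtImInfty
        ((fun z : ℍ => h₁ (g • z) * Δ z ^ m₁) * fun z : ℍ => h₂ (g • z) * Δ z ^ m₂) :=
      (hm₁ g).mul (hm₂ g)
    have e : ((fun z : ℍ => h₁ (g • z) * Δ z ^ m₁) * fun z : ℍ => h₂ (g • z) * Δ z ^ m₂)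
        = fun z : ℍ => (h₁ * h₂) (g • z) * Δ z ^ (m₁ + m₂) := by
      funext z; simp [pow_add]; ring
    rwa [e] at h3

/-- The `ℂ`-algebra of weight-0 weakly holomorphic modular forms for `Γ`. -/
noncomputable def WH0 (Γ : Subgroup SL(2, ℤ)) : Subalgebra ℂ (ℍ → ℂ) where
  carrier := {h | IsWH0 Γ h}
  mul_mem' := fun ha hb => IsWH0.mul ha hb
  add_mem' := fun ha hb => IsWH0.add ha hb
  algebraMap_mem' := fun c => isWH0_const Γ c

lemma mem_WH0 {Γ : Subgroup SL(2, ℤ)} {h : ℍ → ℂ} : h ∈ WH0 Γ ↔ IsWH0 Γ h := Iff.rfl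

lemma WH0_mono {Γ Γ' : Subgroup SL(2, ℤ)} (hΓ : Γ ≤ Γ') : WH0 Γ' ≤ WH0 Γ :=
  fun _ hh => ⟨hh.mdiff, fun γ hγ z => hh.smul_eq γ (hΓ hγ) z, hh.exists_bdd⟩

end Fermat.Agent.ProgramR
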